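import Fermat.Agent.Ribet.Spec
import Fermat.Agent.S41.H701.FinrankTorsion
import Fermat.Agent.S13.H891.Frey

/-!
# Row RIBET, piece DIM: `E[p]` of the Frey curve has rank two over `𝔽_p` (helper643)

`torsionRank : Spec.TorsionRankStatement`, from the landed torsion count
`Fermat.Agent.S41.H701.finrank_torsion_eq_two_h701` (`#E[n] = n²` over an algebraically closed
field of characteristic zero) and `Δ(Frey curve) ≠ 0` (`S13/H891/Frey.lean`).
-/

set_option autoImplicit false

open WeierstrassCurve WeierstrassCurve.Affine WeierstrassCurve.Affine.Point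

namespace Fermat.Agent.Ribet.H643

open Spec

/-- The Frey curve is elliptic over `ℚ̄`. -/
theorem h643_frey_isElliptic (P : FreyPackage) :
    (P.freyCurve⁄(AlgebraicClosure ℚ)).IsElliptic := by
  constructor
  rw [isUnit_iff_ne_zero]
  show (P.freyCurve.map (algebraMap ℚ (AlgebraicClosure ℚ))).Δ ≠ 0
  rw [WeierstrassCurve.map_Δ]
  exact (_root_.map_ne_zero _).mpr (Fermat.Agent.S13.H891.freyCurve_Δ_ne_zero P)

/-- `dim E[p] = 2` for the Frey curve. -/
theorem h643_finrank_freyTorsion (P : FreyPackage) :
    Module.finrank (ZMod P.p) (FreyTorsion P) = 2 := by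
  have : Fact P.p.Prime := ⟨P.pp⟩
  have := h643_frey_isElliptic P
  exact Fermat.Agent.S41.H701.finrank_torsion_eq_two_h701 (K := AlgebraicClosure ℚ)
    P.freyCurve P.p

/-- (DIM) `Spec.TorsionRankStatement`. -/
theorem torsionRank : TorsionRankStatement := h643_finrank_freyTorsion

/-- `#E[p] = p²` for the Frey curve (the hypothesis `hcard₁` of the frozen S38). -/
theorem h643_card_freyTorsion (P : FreyPackage) :
    Nat.card (FreyTorsion P) = P.p ^ 2 := by
  have := h643_frey_isElliptic P
  exact Fermat.Agent.S41.H701.card_torsion_eq_sq_prelude_h701 (K := AlgebraicClosure ℚ)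
    P.freyCurve P.p P.pp.one_le

end Fermat.Agent.Ribet.H643
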