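import Fermat.Agent.Ribet.Spec
import Fermat.Agent.Ribet.H643.TorsionRank

/-!
# Row RIBET, piece P1q: the abstract Mazur principle at `q ≠ p` (helper643)

`mazurPrinciple_of : EmbedStatement → ToricPackageStatement → DetFrobStatement →
  NonEisensteinStatement → PlacesStatement → EigenformOfOccursStatement →
  AlmostAllToWitnessStatement → MazurPrincipleStatement`

(the exact statement of `Skeleton.mazurPrinciple_of` of `coord/RIBET.md`), pure algebra.
-/

set_option autoImplicit false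

open WeierstrassCurve WeierstrassCurve.Affine WeierstrassCurve.Affine.Point
open CuspForm ModularFormClass UpperHalfPlane ModularCurve

namespace Fermat.Agent.Ribet.H643

open Spec

/-- `p`-torsion elements only see integers modulo `p`. -/
theorem h643_zsmul_congr {G : Type*} [AddCommGroup G] {p : ℕ} {z : G} (hz : p • z = 0)
    {a b : ℤ} (h : (a : ZMod p) = (b : ZMod p)) : a • z = b • z := by
  have hd : (p : ℤ) ∣ a - b := by
    rw [← ZMod.intCast_zmod_eq_zero_iff_dvd]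
    push_cast
    rw [h, sub_self]
  obtain ⟨t, ht⟩ := hd
  have h0 : (a - b) • z = 0 := by
    rw [ht, mul_comm, mul_smul, natCast_zsmul, hz, smul_zero]
  rw [sub_smul] at h0
  exact sub_eq_zero.mp h0

/-- A multiple of a `p`-torsion element by an integer prime to `p` generates it. -/
theorem h643_mem_of_zsmul_mem {G : Type*} [AddCommGroup G] (H : AddSubgroup G) {p : ℕ}
    (hp : p.Prime) {z : G} (hz : p • z = 0) {d : ℤ} (hd : ¬ (p : ℤ) ∣ d) (h : d • z ∈ H) :
    z ∈ H := by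
  have : Fact p.Prime := ⟨hp⟩
  have hd0 : (d : ZMod p) ≠ 0 := by
    rwa [Ne, ZMod.intCast_zmod_eq_zero_iff_dvd]
  obtain ⟨c, hc⟩ := ZMod.intCast_surjective ((d : ZMod p)⁻¹)
  have h1 : (c * d) • z = (1 : ℤ) • z := by
    apply h643_zsmul_congr hz
    push_cast
    rw [hc, inv_mul_cancel₀ hd0]
  rw [one_smul, mul_smul] at h1
  rw [← h1]
  exact H.zsmul_mem h c

/-- Linear algebra core: an involution `U` whose `+1`-eigenspace is `0` or everything is `±1`;
if `Φ = a U` on a plane and `det Φ = a ≠ 0` then `a = 1`. -/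
theorem h643_scalar_of_involution {k V : Type*} [Field k] [AddCommGroup V] [Module k V]
    (hdim : Module.finrank k V = 2) (Φ U : Module.End k V) (a : k) (ha : a ≠ 0)
    (hΦU : ∀ x, Φ x = a • U x) (hUU : ∀ x, U (U x) = x)
    (hker : LinearMap.ker (U - 1) = ⊥ ∨ LinearMap.ker (U - 1) = ⊤)
    (hdet : LinearMap.det Φ = a) : a = 1 := by
  have hsc : ∃ e : k, e * e = 1 ∧ ∀ x, U x = e • x := by
    rcases hker with hbot | htop
    · refine ⟨-1, by ring, fun x => ?_⟩
      have hmem : U x + x ∈ LinearMap.ker (U - 1) := by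
        rw [LinearMap.mem_ker, LinearMap.sub_apply, Module.End.one_apply, map_add, hUU]
        abel
      rw [hbot, Submodule.mem_bot] at hmem
      rw [neg_one_smul]
      exact eq_neg_of_add_eq_zero_left hmem
    · refine ⟨1, by ring, fun x => ?_⟩
      have hmem : x ∈ LinearMap.ker (U - 1) := by rw [htop]; exact Submodule.mem_top
      rw [LinearMap.mem_ker, LinearMap.sub_apply, Module.End.one_apply, sub_eq_zero] at hmem
      rw [hmem, one_smul]
  obtain ⟨e, he, hUe⟩ := hsc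
  have hΦe : Φ = (a * e) • (1 : Module.End k V) := by
    ext x
    rw [hΦU, hUe, LinearMap.smul_apply, Module.End.one_apply, smul_smul]
  rw [hΦe, LinearMap.det_smul, hdim, _root_.map_one, mul_one] at hdet
  have h2 : a * (a - 1) = 0 := by
    have : (a * e) ^ 2 = a ^ 2 * (e * e) := by ring
    rw [this, he, mul_one] at hdet
    rw [mul_sub, mul_one, ← pow_two, hdet, sub_self]
  rcases mul_eq_zero.mp h2 with h | h
  · exact absurd h ha
  · exact sub_eq_zero.mp h

/-- `P.p • x = 0` for `x ∈ E[p]`. -/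
theorem h643_nsmul_freyTorsion (P : FreyPackage) (x : FreyTorsion P) : P.p • x = 0 := by
  have h : ((P.p : ℕ) : ℤ) • x = 0 := Submodule.smul_torsionBy _ x
  rwa [natCast_zsmul] at h

/-- (P1q) abstract Mazur principle at `q ≠ p`: pure algebra from the toric package. -/
theorem mazurPrinciple_of (hE : EmbedStatement) (hT : ToricPackageStatement)
    (hDet : DetFrobStatement) (hNE : NonEisensteinStatement) (hPl : PlacesStatement)
    (hR3 : EigenformOfOccursStatement) (hR3' : AlmostAllToWitnessStatement) :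
    MazurPrincipleStatement := by
  intro P L q hL hq hqp hqL hq2 hirr hmod hunr hq1
  obtain ⟨M', rfl⟩ := hqL
  have hM'pos : 0 < M' := Nat.pos_of_ne_zero (by rintro rfl; simp at hL)
  have hqM' : ¬ q ∣ M' := by
    rintro ⟨m, rfl⟩
    exact hq2 ⟨m, by ring⟩
  rw [Nat.mul_div_cancel_left M' hq.pos]
  have : NeZero M' := ⟨hM'pos.ne'⟩
  have : NeZero (q * M') := ⟨hL.ne'⟩
  have : Fact P.p.Prime := ⟨P.pp⟩
  obtain ⟨f, W, 𝔪, hf, hW, hmax, hp𝔪, hc⟩ := hmod
  have hwit : P.IsCongruentWitness (q * M') f W 𝔪 := ⟨hf, hW, hmax, hp𝔪, hc⟩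
  obtain ⟨S, ι, hιinj, hιgal, hιhecke⟩ := hE P (q * M') hirr f W 𝔪 hwit
  obtain ⟨A, hA, φ, hφ⟩ := hPl q hq
  obtain ⟨𝒯, 𝓕, β, u, hTF, hFp, hEis, hβhecke, hβker, hugal, huhecke, huinv, hfrob⟩ :=
    hT M' q P.p hq P.pp hqp hqM' A hA
  -- Step A: `ι x` is `p`-torsion
  have hAp : ∀ x : FreyTorsion P, P.p • ι x = 0 := fun x => by
    rw [← map_nsmul, h643_nsmul_freyTorsion, _root_.map_zero]
  -- Step B: `ι x` is inertia-fixed
  have hBI : ∀ x : FreyTorsion P, ∀ σ ∈ A.inertiaSubgroupIn ℚ, σ • ι x = ι x := fun x σ hσ => by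
    rw [← hιgal]
    exact congrArg ι (hunr A hA σ hσ x)
  -- the finite set of excluded primes
  have hne : q * M' * P.p ≠ 0 := mul_ne_zero hL.ne' P.hp0
  set S' : Finset ℕ := S ∪ (q * M' * P.p).primeFactors with hS'
  have hS'1 : ∀ ℓ : Nat.Primes, (ℓ : ℕ) ∉ S' → (ℓ : ℕ) ∉ S := fun ℓ h hS =>
    h (Finset.mem_union_left _ hS)
  have hS'2 : ∀ ℓ : Nat.Primes, (ℓ : ℕ) ∉ S' → ¬ (ℓ : ℕ) ∣ q * M' * P.p := fun ℓ h hd =>
    h (Finset.mem_union_right _ (Nat.mem_primeFactors.mpr ⟨ℓ.2, hd, hne⟩))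
  -- Step C: `ι x ∈ 𝓕`
  have hCF : ∀ x : FreyTorsion P, ι x ∈ 𝓕 := by
    obtain ⟨ℓ, hℓ, hℓS', hℓgood, hℓne⟩ := hNE P W hW hirr S'
    intro x
    have h1 := hEis (ι x) (hAp x) (hBI x) ⟨ℓ, hℓ⟩ (hS'2 ⟨ℓ, hℓ⟩ hℓS')
    rw [hιhecke ⟨ℓ, hℓ⟩ (hS'1 ⟨ℓ, hℓ⟩ hℓS') x] at h1
    have h2 : (W.apOfModel ℓ - ((ℓ : ℤ) + 1)) • ι x ∈ 𝓕 := by
      have e : (W.apOfModel ℓ - ((ℓ : ℤ) + 1)) • ι x
          = W.apOfModel ℓ • ι x - (ℓ + 1) • ι x := by
        rw [sub_smul, ← natCast_zsmul]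
        push_cast
        rfl
      rw [e]
      exact h1
    exact h643_mem_of_zsmul_mem 𝓕 P.pp (hAp x) hℓne h2
  by_cases hβ : ∀ x : FreyTorsion P, β ⟨ι x, hCF x⟩ = 0
  · -- Case 2: `E[p]` lands in the toric part; contradiction with `det = q`
    exfalso
    have hT' : ∀ x : FreyTorsion P, ι x ∈ 𝒯 := fun x => hβker ⟨ι x, hCF x⟩ (hβ x)
    have hφι : ∀ x : FreyTorsion P, ι (φ • x) = q • u (ι x) := fun x => by
      rw [hιgal]
      exact hfrob φ hφ _ (hT' x)
    have hpu : ∀ x : FreyTorsion P, P.p • u (ι x) = 0 := fun x => by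
      rw [← map_nsmul, hAp, _root_.map_zero]
    have hqk : (q : ZMod P.p) ≠ 0 := by
      intro h
      rw [ZMod.natCast_eq_zero_iff] at h
      exact hqp ((Nat.prime_dvd_prime_iff_eq P.pp hq).mp h).symm
    obtain ⟨c, hc⟩ := ZMod.intCast_surjective ((q : ZMod P.p)⁻¹)
    have hU : ∀ x : FreyTorsion P, ι (c • (φ • x)) = u (ι x) := fun x => by
      rw [map_zsmul, hφι, ← natCast_zsmul, ← mul_smul]
      have h1 := h643_zsmul_congr (hpu x) (a := c * q) (b := 1)
        (by push_cast; rw [hc, inv_mul_cancel₀ hqk])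
      rw [h1, one_smul]
    -- the `𝔽_p`-linear involution `U = q⁻¹ Φ`
    obtain ⟨Φ, hΦ, hdet⟩ : ∃ Φ : Module.End (ZMod P.p) (FreyTorsion P),
        (∀ x, Φ x = φ • x) ∧ LinearMap.det Φ = (q : ZMod P.p) :=
      ⟨galoisRepModuleEnd (S := ℚ) (K := AlgebraicClosure ℚ) P.freyCurve P.p φ,
        fun x => rfl, hDet P q hq hqp A hA φ hφ⟩
    obtain ⟨U, hUdef⟩ : ∃ U : Module.End (ZMod P.p) (FreyTorsion P),
        U = (c : ZMod P.p) • Φ := ⟨_, rfl⟩
    have hUx : ∀ x, U x = c • (φ • x) := fun x => by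
      rw [hUdef, LinearMap.smul_apply, hΦ, Int.cast_smul_eq_zsmul]
    have hιU : ∀ x, ι (U x) = u (ι x) := fun x => by rw [hUx, hU]
    have hUU : ∀ x, U (U x) = x := fun x => hιinj (by
      rw [hιU, hιU]
      exact huinv _ (hT' x))
    have hUσ : ∀ (σ : GQ) (x : FreyTorsion P), U (σ • x) = σ • U x := fun σ x => hιinj (by
      rw [hιU, hιgal, hugal, hιgal, hιU])
    have hΦU : ∀ x, Φ x = (q : ZMod P.p) • U x := fun x => by
      rw [hUdef, LinearMap.smul_apply, smul_smul, hc, mul_inv_cancel₀ hqk, one_smul]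
    -- the `+1`-eigenspace is Galois stable
    have hstab : IsGaloisStable (S := ℚ) (LinearMap.ker (U - 1)) := by
      intro σ x hx
      rw [LinearMap.mem_ker, LinearMap.sub_apply, Module.End.one_apply, sub_eq_zero] at hx ⊢
      rw [hUσ, hx]
    have hq1' : (q : ZMod P.p) = 1 :=
      h643_scalar_of_involution (h643_finrank_freyTorsion P) Φ U _ hqk hΦU hUU
        (hirr.2 _ hstab) hdet
    apply hq1
    rw [← ZMod.natCast_eq_zero_iff, Nat.cast_sub hq.one_le, hq1']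
    simp
  · -- Case 1: the eigensystem occurs in the abelian part `J₀(M')²`
    obtain ⟨x, hx⟩ := not_forall.mp hβ
    set z : 𝓕 := ⟨ι x, hCF x⟩ with hz
    have hpz : P.p • z = 0 := Subtype.ext (by
      rw [AddSubgroup.coe_nsmul]
      exact hAp x)
    have hpy : P.p • β z = 0 := by rw [← map_nsmul, hpz, _root_.map_zero]
    have hTy : ∀ ℓ : Nat.Primes, (ℓ : ℕ) ∉ S' →
        (heckeOperatorBar M' ℓ (β z).1, heckeOperatorBar M' ℓ (β z).2)
          = W.apOfModel ℓ • β z := fun ℓ h => by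
      obtain ⟨hx', hβx⟩ := hβhecke ℓ (hS'2 ℓ h) z
      rw [← hβx, ← map_zsmul]
      congr 1
      apply Subtype.ext
      rw [AddSubgroup.coe_zsmul]
      exact hιhecke ℓ (hS'1 ℓ h) x
    have hocc : OccursIn M' P.p S' (fun ℓ => W.apOfModel ℓ) := by
      by_cases h1 : (β z).1 = 0
      · have h2 : (β z).2 ≠ 0 := fun h2 => hx (Prod.ext h1 h2)
        exact ⟨(β z).2, h2, congrArg Prod.snd hpy, fun ℓ hℓ => congrArg Prod.snd (hTy ℓ hℓ)⟩
      · exact ⟨(β z).1, h1, congrArg Prod.fst hpy, fun ℓ hℓ => congrArg Prod.fst (hTy ℓ hℓ)⟩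
    obtain ⟨g, 𝔪', hg, hmax', hp', hcong⟩ := hR3 M' P.p P.pp S' _ hocc
    exact ⟨g, W, 𝔪', hR3' P M' hM'pos g W 𝔪' S' hg hW hmax' hp' hcong⟩

end Fermat.Agent.Ribet.H643
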